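import Fermat.Agent.NeronSpecialisation.Weak
import Fermat.Agent.FunctionFieldRank.Squares

/-!
# The classes of a point at a place of the line

At every place, infinity included, the order of `x - eₗ` is even when `eₗ` is separated there from
the two other roots; the three orders always add up to an even number.
-/

set_option autoImplicit false
set_option linter.unusedSectionVars false
set_option linter.style.haveILetI false

noncomputable section

open WeierstrassCurve Polynomial
open FA.FunctionFieldMW FA.FunctionFieldRank FA.NeronSpecialisation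
open scoped Classical

namespace FA.FullTwoTorsionRank

variable {k : Type*} [Field k]

/-- The monic prime `T - t`. -/
def linPrime (t : k) : MonicPrime k :=
  ⟨X - Polynomial.C t, monic_X_sub_C t, irreducible_X_sub_C t⟩

theorem linPrime_injective : Function.Injective (linPrime (k := k)) := fun a b h => by
  have h' := congrArg (fun P : MonicPrime k => P.1.coeff 0) h
  simpa [linPrime] using h'

/-- Minus the order at a place of the line; `none` is infinity. -/
def weightAt (v : Option k) (z : RatFunc k) : ℤ := placeWeight (v.map linPrime) z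

theorem weightAt_mul (v : Option k) {x y : RatFunc k} (hx : x ≠ 0) (hy : y ≠ 0) :
    weightAt v (x * y) = weightAt v x + weightAt v y :=
  placeWeight_mul _ hx hy

theorem weightAt_add_le (v : Option k) {x y : RatFunc k} (hx : x ≠ 0) (hy : y ≠ 0)
    (hxy : x + y ≠ 0) : weightAt v (x + y) ≤ max (weightAt v x) (weightAt v y) :=
  placeWeight_add _ hx hy hxy

theorem weightAt_neg (v : Option k) {x : RatFunc k} (hx : x ≠ 0) :
    weightAt v (-x) = weightAt v x := by
  have h := weightAt_mul v (neg_ne_zero.2 hx) (neg_ne_zero.2 hx)
  rw [neg_mul_neg, weightAt_mul v hx hx] at h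
  omega

theorem weightAt_some (t : k) (z : RatFunc k) : weightAt (some t) z = -ordAt (linPrime t) z := by
  simp [weightAt, placeWeight, linPrime]

/-- The `i`-th and `j`-th roots meet at the place: `eᵢ - eⱼ` has a zero there, as a form of degree
`2 m`. -/
def Vanish (e : Fin 3 → k[X]) (m : ℕ) : Option k → Fin 3 → Fin 3 → Prop
  | some t, i, j => (e i - e j).eval t = 0
  | none, i, j => (e i - e j).natDegree < 2 * m

variable {e : Fin 3 → k[X]} {m : ℕ}

theorem vanish_symm {v : Option k} {i j : Fin 3} (h : Vanish e m v i j) : Vanish e m v j i := by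
  cases v with
  | some t => simp only [Vanish, eval_sub, sub_eq_zero] at h ⊢; exact h.symm
  | none => simp only [Vanish] at h ⊢; rwa [← neg_sub, natDegree_neg]

theorem vanish_trans {v : Option k} {i j l : Fin 3} (h : Vanish e m v i j)
    (h' : Vanish e m v j l) : Vanish e m v i l := by
  cases v with
  | some t => simp only [Vanish, eval_sub, sub_eq_zero] at h h' ⊢; exact h.trans h'
  | none =>
    simp only [Vanish] at h h' ⊢
    rw [show e i - e l = (e i - e j) + (e j - e l) by ring]
    exact (natDegree_add_le _ _).trans_lt (max_lt h h')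

/-- The shift of the weights: `2 m` at infinity. -/
def shiftAt (m : ℕ) : Option k → ℤ
  | some _ => 0
  | none => 2 * m

theorem even_shiftAt (v : Option k) : Even (shiftAt (k := k) m v) := by
  cases v with
  | some t => exact Even.zero
  | none => exact even_two_mul _

theorem weightAt_diff_eq (he : Function.Injective e) (hdeg : ∀ i j, (e i - e j).natDegree ≤ 2 * m)
    {v : Option k} {i j : Fin 3} (hij : i ≠ j) (h : ¬Vanish e m v i j) :
    weightAt v (genRoots e i - genRoots e j) = shiftAt m v := by
  have hne : e i - e j ≠ 0 := sub_ne_zero.2 (he.ne hij)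
  rw [genRoots, genRoots, ← map_sub]
  cases v with
  | some t =>
    rw [weightAt_some, ordAt_algebraMap]
    simp only [Vanish] at h
    simp only [shiftAt]
    rw [(expAt_eq_zero_iff (linPrime t) hne).2 fun hd => h (dvd_iff_isRoot.1 hd), Nat.cast_zero,
      neg_zero]
  | none =>
    simp only [Vanish, not_lt] at h
    simp only [weightAt, Option.map_none, placeWeight, RatFunc.intDegree_polynomial, shiftAt,
      le_antisymm (hdeg i j) h, Nat.cast_mul, Nat.cast_ofNat]

/-- The parity of the order. -/
def parity (v : Option k) (z : RatFunc k) : ZMod 2 := weightAt v z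

theorem parity_mul (v : Option k) {x y : RatFunc k} (hx : x ≠ 0) (hy : y ≠ 0) :
    parity v (x * y) = parity v x + parity v y := by
  rw [parity, weightAt_mul v hx hy, Int.cast_add]
  rfl

theorem parity_eq_zero_iff (v : Option k) (z : RatFunc k) :
    parity v z = 0 ↔ Even (weightAt v z) := by
  rw [parity, ZMod.intCast_zmod_eq_zero_iff_dvd, Nat.cast_two, even_iff_two_dvd]

/-- The place separates `eₗ` from the other two roots. -/
def Separated (e : Fin 3 → k[X]) (m : ℕ) (v : Option k) (l : Fin 3) : Prop :=
  ∀ i, i ≠ l → ¬Vanish e m v i l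

/-- **The order of `x - eₗ` is even where `eₗ` is separated.** -/
theorem even_weightAt_classElt (he : Function.Injective e)
    (hdeg : ∀ i j, (e i - e j).natDegree ≤ 2 * m) {v : Option k} {l : Fin 3}
    (hl : Separated e m v l) {x y : RatFunc k}
    (h : (rootCurve (genRoots e)).toAffine.Equation x y) :
    Even (weightAt v (classElt (genRoots e) x l)) := by
  have hd : ∀ {a b : Fin 3}, a ≠ b → genRoots e a - genRoots e b ≠ 0 := fun hab =>
    (rootData (genRoots_injective he)).ne hab
  have hs := even_shiftAt (k := k) (m := m) v
  have hδ : ∀ i, i ≠ l → weightAt v (genRoots e l - genRoots e i) = shiftAt m v := fun i hi =>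
    weightAt_diff_eq he hdeg (Ne.symm hi) fun hv => hl i hi (vanish_symm hv)
  by_cases hx : ∃ j, x = genRoots e j
  · obtain ⟨j, rfl⟩ := hx
    unfold classElt
    split_ifs with hjl
    · have key : ∀ a b c : Fin 3, a = l → a ≠ b → a ≠ c →
          Even (weightAt v ((genRoots e a - genRoots e b) * (genRoots e a - genRoots e c))) :=
        fun a b c hal hab hac => by
          rw [weightAt_mul v (hd hab) (hd hac), hal, hδ b (hal ▸ hab.symm), hδ c (hal ▸ hac.symm)]
          exact hs.add hs
      fin_cases l
      · convert key 0 1 2 rfl (by decide) (by decide) using 2; simp only [Fin.zero_eta]; ring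
      · convert key 1 0 2 rfl (by decide) (by decide) using 2; simp only [Fin.mk_one]; ring
      · convert key 2 0 1 rfl (by decide) (by decide) using 2; simp only [Fin.reduceFinMk]; ring
    · have hjl' : j ≠ l := fun e' => hjl (by rw [e'])
      rw [← weightAt_neg v (hd hjl'), neg_sub, hδ j hjl']
      exact hs
  push Not at hx
  have h0 := fun j => sub_ne_zero.2 (hx j)
  have e' : y * y = (x - genRoots e 0) * (x - genRoots e 1) * (x - genRoots e 2) := by
    rw [cubicCurve_equation] at h; linear_combination h
  have hy : y ≠ 0 := fun hy => by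
    rw [hy, mul_zero, eq_comm] at e'
    exact mul_ne_zero (mul_ne_zero (h0 0) (h0 1)) (h0 2) e'
  have hsum := congrArg (weightAt v) e'
  rw [weightAt_mul v hy hy, weightAt_mul v (mul_ne_zero (h0 0) (h0 1)) (h0 2),
    weightAt_mul v (h0 0) (h0 1)] at hsum
  set u := fun j => weightAt v (x - genRoots e j) with hu
  set s := shiftAt (k := k) m v with hs'
  have hb : ∀ i, i ≠ l → s ≤ max (u i) (u l) ∧ u i ≤ max (u l) s ∧ u l ≤ max (u i) s := fun i hi => by
    have h1 := weightAt_add_le v (h0 i) (neg_ne_zero.2 (h0 l))
      (by rw [← sub_eq_add_neg, sub_sub_sub_cancel_left]; exact hd (Ne.symm hi))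
    rw [weightAt_neg v (h0 l), ← sub_eq_add_neg, sub_sub_sub_cancel_left, hδ i hi] at h1
    have e2 : x - genRoots e l + (genRoots e l - genRoots e i) = x - genRoots e i := by ring
    have h2 := weightAt_add_le v (h0 l) (hd (Ne.symm hi)) (by rw [e2]; exact h0 i)
    rw [e2, hδ i hi] at h2
    have e3 : x - genRoots e i + (genRoots e i - genRoots e l) = x - genRoots e l := by ring
    have h3 := weightAt_add_le v (h0 i) (hd hi) (by rw [e3]; exact h0 l)
    rw [e3, ← weightAt_neg v (hd hi), neg_sub, hδ i hi] at h3
    exact ⟨h1, h2, h3⟩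
  rw [classElt, if_neg (hx l)]
  change Even (u l)
  change weightAt v y + weightAt v y = u 0 + u 1 + u 2 at hsum
  rw [Int.even_iff] at hs ⊢
  fin_cases l <;> simp only [Fin.zero_eta, Fin.mk_one, Fin.reduceFinMk] at hb ⊢
  · have a := hb 1 (by decide); have b := hb 2 (by decide); omega
  · have a := hb 0 (by decide); have b := hb 2 (by decide); omega
  · have a := hb 0 (by decide); have b := hb 1 (by decide); omega

/-- **The three orders add up to an even number.** -/
theorem sum_parity_classElt (he : Function.Injective e) (v : Option k) {x y : RatFunc k}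
    (h : (rootCurve (genRoots e)).toAffine.Equation x y) :
    parity v (classElt (genRoots e) x 0) + parity v (classElt (genRoots e) x 1) +
      parity v (classElt (genRoots e) x 2) = 0 := by
  set r := genRoots e with hr
  have hd : ∀ {a b : Fin 3}, a ≠ b → r a - r b ≠ 0 := fun hab =>
    (rootData (genRoots_injective he)).ne hab
  have hinj : ∀ {a b : Fin 3}, a ≠ b → r a ≠ r b := fun hab => sub_ne_zero.1 (hd hab)
  by_cases hx : ∃ j, x = r j
  · obtain ⟨j, rfl⟩ := hx
    have key : ∀ a b : RatFunc k, a ≠ 0 → b ≠ 0 → parity v (a * b) + parity v a + parity v b = 0 :=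
      fun a b ha hb => by
        rw [parity_mul v ha hb, add_assoc (parity v a + parity v b), CharTwo.add_self_eq_zero]
    fin_cases j <;> simp only [Fin.zero_eta, Fin.mk_one, Fin.reduceFinMk, classElt]
    · rw [if_pos trivial, if_neg (hinj (by decide)), if_neg (hinj (by decide))]
      refine Eq.trans ?_ (key _ _ (hd (show (0 : Fin 3) ≠ 1 by decide))
        (hd (show (0 : Fin 3) ≠ 2 by decide)))
      congr 3; ring
    · rw [if_neg (hinj (by decide)), if_pos trivial, if_neg (hinj (by decide))]
      refine Eq.trans ?_ (key _ _ (hd (show (1 : Fin 3) ≠ 0 by decide))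
        (hd (show (1 : Fin 3) ≠ 2 by decide)))
      rw [add_comm (parity v (r 1 - r 0))]
      congr 3; ring
    · rw [if_neg (hinj (by decide)), if_neg (hinj (by decide)), if_pos trivial]
      refine Eq.trans ?_ (key _ _ (hd (show (2 : Fin 3) ≠ 0 by decide))
        (hd (show (2 : Fin 3) ≠ 1 by decide)))
      rw [add_comm, ← add_assoc]
      congr 3; ring
  push Not at hx
  have h0 := fun j => sub_ne_zero.2 (hx j)
  have e' : y * y = (x - r 0) * (x - r 1) * (x - r 2) := by
    rw [cubicCurve_equation] at h; linear_combination h
  have hy : y ≠ 0 := fun hy => by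
    rw [hy, mul_zero, eq_comm] at e'
    exact mul_ne_zero (mul_ne_zero (h0 0) (h0 1)) (h0 2) e'
  simp only [classElt, hx, if_false]
  rw [← parity_mul v (h0 0) (h0 1), ← parity_mul v (mul_ne_zero (h0 0) (h0 1)) (h0 2), ← e',
    parity_mul v hy hy, CharTwo.add_self_eq_zero]

end FA.FullTwoTorsionRank
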