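import Fermat.Agent.FullTwoTorsionRank.Local

/-!
# The allowed patterns of parities

One dimension at a place where one pair of roots meets, two where all three meet; the sums over the
places of the patterns fill the group of triples adding up to zero, because each pair meets
somewhere on the line.
-/

set_option autoImplicit false
set_option linter.unusedSectionVars false
set_option linter.style.haveILetI false

noncomputable section

open Polynomial
open FA.FunctionFieldRank FA.NeronSpecialisation
open scoped Classical

namespace FA.FullTwoTorsionRank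

variable {k : Type*} [Field k] {e : Fin 3 → k[X]} {m : ℕ}

/-- Two at a place where all three roots meet, one at another place. -/
def placeCount (e : Fin 3 → k[X]) (m : ℕ) (v : Option k) : ℕ :=
  if Vanish e m v 0 1 ∧ Vanish e m v 0 2 then 2 else 1

/-- The finite places where two roots meet, and infinity if two meet there. -/
def badSet (e : Fin 3 → k[X]) (m : ℕ) : Finset (Option k) :=
  ((e 0 - e 1) * (e 0 - e 2) * (e 1 - e 2)).roots.toFinset.map Function.Embedding.some ∪
    if Vanish e m none 0 1 ∨ Vanish e m none 0 2 ∨ Vanish e m none 1 2 then {none} else ∅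

/-- The degree of the conductor: one for each place where exactly two roots meet, two for each
where all three do. -/
def conductorTwo (e : Fin 3 → k[X]) (m : ℕ) : ℕ := ∑ v ∈ badSet e m, placeCount e m v

theorem prod_diff_ne_zero (he : Function.Injective e) :
    (e 0 - e 1) * (e 0 - e 2) * (e 1 - e 2) ≠ 0 :=
  mul_ne_zero (mul_ne_zero (sub_ne_zero.2 (he.ne (by decide))) (sub_ne_zero.2 (he.ne (by decide))))
    (sub_ne_zero.2 (he.ne (by decide)))

theorem mem_badSet (he : Function.Injective e) (v : Option k) :
    v ∈ badSet e m ↔ ∃ i j, i ≠ j ∧ Vanish e m v i j := by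
  have hiff : v ∈ badSet e m ↔ Vanish e m v 0 1 ∨ Vanish e m v 0 2 ∨ Vanish e m v 1 2 := by
    cases v with
    | some t =>
      have hn : some t ∉ (if Vanish e m none 0 1 ∨ Vanish e m none 0 2 ∨ Vanish e m none 1 2
          then {none} else (∅ : Finset (Option k))) := by split_ifs <;> simp
      rw [badSet, Finset.mem_union, or_iff_left hn]
      simp only [Finset.mem_map,
        Function.Embedding.some_apply, Option.some.injEq, exists_eq_right, Multiset.mem_toFinset,
        mem_roots (prod_diff_ne_zero he), IsRoot, eval_mul, mul_eq_zero, Vanish, or_assoc]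
    | none =>
      by_cases h : Vanish e m none 0 1 ∨ Vanish e m none 0 2 ∨ Vanish e m none 1 2 <;>
        simp [badSet, h]
  rw [hiff]
  constructor
  · rintro (h | h | h)
    exacts [⟨0, 1, by decide, h⟩, ⟨0, 2, by decide, h⟩, ⟨1, 2, by decide, h⟩]
  · rintro ⟨i, j, hij, h⟩
    have := vanish_symm h
    fin_cases i <;> fin_cases j <;> first | exact absurd rfl hij | tauto

theorem separated_of_not_mem (he : Function.Injective e) {v : Option k} (hv : v ∉ badSet e m)
    (l : Fin 3) : Separated e m v l := fun i hi h => hv ((mem_badSet he v).2 ⟨i, l, hi, h⟩)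

/-- Every pair of roots meets somewhere on the line. -/
theorem exists_vanish [IsAlgClosed k] (he : Function.Injective e) (hm : 0 < m) {i j : Fin 3}
    (hij : i ≠ j) : ∃ v ∈ badSet e m, Vanish e m v i j := by
  by_cases h : ∃ t, (e i - e j).eval t = 0
  · obtain ⟨t, ht⟩ := h
    exact ⟨some t, (mem_badSet he _).2 ⟨i, j, hij, ht⟩, ht⟩
  · have hd : (e i - e j).natDegree = 0 := by
      by_contra hd
      obtain ⟨t, ht⟩ := IsAlgClosed.exists_root (e i - e j) fun hc => hd
        (natDegree_eq_zero_iff_degree_le_zero.2 hc.le)
      exact h ⟨t, ht⟩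
    have hv : Vanish e m none i j := by simp only [Vanish, hd]; omega
    exact ⟨none, (mem_badSet he _).2 ⟨i, j, hij, hv⟩, hv⟩

/-- The triples adding up to zero that vanish at the separated roots. -/
def allowed (e : Fin 3 → k[X]) (m : ℕ) (v : Option k) : AddSubgroup (Fin 3 → ZMod 2) where
  carrier := {π | π 0 + π 1 + π 2 = 0 ∧ ∀ l, Separated e m v l → π l = 0}
  add_mem' {a b} ha hb := ⟨by
    simp only [Pi.add_apply]; linear_combination ha.1 + hb.1,
    fun l hl => by simp [ha.2 l hl, hb.2 l hl]⟩
  zero_mem' := ⟨by simp, fun _ _ => rfl⟩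
  neg_mem' {a} ha := by
    rw [show -a = a from funext fun i => CharTwo.neg_eq (a i)]; exact ha

theorem mem_allowed {v : Option k} {π : Fin 3 → ZMod 2} :
    π ∈ allowed e m v ↔ π 0 + π 1 + π 2 = 0 ∧ ∀ l, Separated e m v l → π l = 0 := Iff.rfl

theorem card_pattern : ∀ S : Finset (Fin 3),
    (S = ∅ → Fintype.card {π : Fin 3 → ZMod 2 // π 0 + π 1 + π 2 = 0 ∧ ∀ l ∈ S, π l = 0} = 4) ∧
      (S.card = 1 →
        Fintype.card {π : Fin 3 → ZMod 2 // π 0 + π 1 + π 2 = 0 ∧ ∀ l ∈ S, π l = 0} = 2) := by
  decide

theorem card_allowed (he : Function.Injective e) {v : Option k} (hv : v ∈ badSet e m) :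
    Nat.card (allowed e m v) = 2 ^ placeCount e m v := by
  set S := Finset.univ.filter fun l => Separated e m v l with hS
  have hcard : Nat.card (allowed e m v) =
      Fintype.card {π : Fin 3 → ZMod 2 // π 0 + π 1 + π 2 = 0 ∧ ∀ l ∈ S, π l = 0} := by
    rw [← Nat.card_eq_fintype_card]
    exact Nat.card_congr (Equiv.subtypeEquivRight fun π => by simp [mem_allowed, hS])
  rw [hcard]
  by_cases hall : Vanish e m v 0 1 ∧ Vanish e m v 0 2
  · have h12 := vanish_trans (vanish_symm hall.1) hall.2
    have hSe : S = ∅ := Finset.eq_empty_of_forall_notMem fun l hl => by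
      have h : Separated e m v l := (Finset.mem_filter.1 hl).2
      fin_cases l
      · exact h 1 (by decide) (vanish_symm hall.1)
      · exact h 0 (by decide) hall.1
      · exact h 0 (by decide) hall.2
    rw [placeCount, if_pos hall]
    exact ((card_pattern S).1 hSe).trans (by norm_num)
  · obtain ⟨i, j, hij, h⟩ := (mem_badSet he v).1 hv
    have hnot : ∀ {a b c : Fin 3}, a ≠ b → a ≠ c → b ≠ c → Vanish e m v a b → ¬Vanish e m v a c := by
      intro a b c hab hac hbc h1 h2
      have h3 := vanish_trans (vanish_symm h1) h2
      have h1' := vanish_symm h1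
      have h2' := vanish_symm h2
      have h3' := vanish_symm h3
      apply hall
      fin_cases a <;> fin_cases b <;> fin_cases c <;>
        first
          | exact absurd rfl hab
          | exact absurd rfl hac
          | exact absurd rfl hbc
          | exact ⟨‹_›, ‹_›⟩
    obtain ⟨l, hil, hjl, hl⟩ : ∃ l, i ≠ l ∧ j ≠ l ∧ ∀ a, a = i ∨ a = j ∨ a = l := by
      clear h hnot; revert hij; revert i j; decide
    have hSe : S = {l} := by
      ext a
      simp only [hS, Finset.mem_filter, Finset.mem_univ, true_and, Finset.mem_singleton]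
      constructor
      · intro ha
        rcases hl a with rfl | rfl | rfl
        · exact absurd (vanish_symm h) (ha j (Ne.symm hij))
        · exact absurd h (ha i hij)
        · rfl
      · rintro rfl b hb hba
        rcases hl b with rfl | rfl | rfl
        · exact hnot hij hil hjl h hba
        · exact hnot (Ne.symm hij) hjl hil (vanish_symm h) hba
        · exact hb rfl
    rw [placeCount, if_neg hall]
    exact ((card_pattern S).2 (by rw [hSe, Finset.card_singleton])).trans (by norm_num)

/-- The sum of the patterns over the bad places. -/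
def patternSum (e : Fin 3 → k[X]) (m : ℕ) :
    ((v : badSet e m) → allowed e m v.1) →+ (Fin 3 → ZMod 2) where
  toFun π := ∑ v, (π v : Fin 3 → ZMod 2)
  map_zero' := by simp
  map_add' a b := by simp [Finset.sum_add_distrib]

theorem card_patterns (he : Function.Injective e) :
    Nat.card ((v : badSet e m) → allowed e m v.1) = 2 ^ conductorTwo e m := by
  rw [Nat.card_pi, Finset.prod_congr rfl fun v _ => card_allowed he v.2, Finset.prod_pow_eq_pow_sum,
    conductorTwo, Finset.sum_coe_sort (badSet e m) fun v => placeCount e m v]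

/-- **The patterns with sum zero**: at most `2 ^ (N - 2)`. -/
theorem card_ker_patternSum [IsAlgClosed k] (he : Function.Injective e) (hm : 0 < m) :
    2 ≤ conductorTwo e m ∧
      Nat.card (patternSum e m).ker * 4 ≤ 2 ^ conductorTwo e m := by
  set f : Fin 3 → Fin 3 → Fin 3 → ZMod 2 := fun i j l => if l = i ∨ l = j then 1 else 0 with hf
  have hmem : ∀ i j, i ≠ j → f i j ∈ (patternSum e m).range := fun i j hij => by
    obtain ⟨v, hv, h⟩ := exists_vanish he hm hij
    have hw : f i j ∈ allowed e m v := by
      refine ⟨?_, fun l hl => ?_⟩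
      · simp only [hf]
        clear h; revert hij; revert i j; decide
      · simp only [hf]
        rw [if_neg]
        rintro (rfl | rfl)
        · exact hl j (Ne.symm hij) (vanish_symm h)
        · exact hl i hij h
    refine ⟨Pi.single (⟨v, hv⟩ : badSet e m) (⟨f i j, hw⟩ : allowed e m v), ?_⟩
    show ∑ w, ((Pi.single (⟨v, hv⟩ : badSet e m) (⟨f i j, hw⟩ : allowed e m v) :
      (w : badSet e m) → allowed e m w.1) w : Fin 3 → ZMod 2) = f i j
    rw [Finset.sum_eq_single (⟨v, hv⟩ : badSet e m) (fun w _ hw => by
      rw [Pi.single_eq_of_ne hw]; rfl) (fun hw => absurd (Finset.mem_univ _) hw), Pi.single_eq_same]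
  have h4 : 4 ≤ Nat.card (patternSum e m).range := by
    let g : Fin 4 → (patternSum e m).range :=
      ![0, ⟨f 0 1, hmem 0 1 (by decide)⟩, ⟨f 0 2, hmem 0 2 (by decide)⟩,
        ⟨f 1 2, hmem 1 2 (by decide)⟩]
    have hg : Function.Injective g := fun a b h => by
      have h0 := congrArg (fun z : (patternSum e m).range => (z.1 0, z.1 1)) h
      revert h0
      fin_cases a <;> fin_cases b <;> simp [g, f]
    simpa using Nat.card_le_card_of_injective g hg
  have hmul : Nat.card (patternSum e m).ker * Nat.card (patternSum e m).range =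
      2 ^ conductorTwo e m := by
    rw [← AddSubgroup.index_ker, AddSubgroup.card_mul_index, card_patterns he]
  have hle := (Nat.mul_le_mul_left (Nat.card (patternSum e m).ker) h4).trans hmul.le
  refine ⟨?_, hle⟩
  have h1 : 2 ^ 2 ≤ 2 ^ conductorTwo e m :=
    (Nat.le_mul_of_pos_left 4 Nat.card_pos).trans hle
  exact (Nat.pow_le_pow_iff_right one_lt_two).1 h1

/-- **At most six conductor degrees for each level.** -/
theorem conductorTwo_le [IsAlgClosed k] (he : Function.Injective e)
    (hdeg : ∀ i j, (e i - e j).natDegree ≤ 2 * m) : conductorTwo e m ≤ 6 * m := by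
  set a := e 0 - e 1 with ha
  set b := e 0 - e 2 with hb
  set c := e 1 - e 2 with hc
  have hne : a * b * c ≠ 0 := prod_diff_ne_zero he
  obtain ⟨hab, hc0⟩ := mul_ne_zero_iff.1 hne
  obtain ⟨ha0, hb0⟩ := mul_ne_zero_iff.1 hab
  have hda : a.natDegree ≤ 2 * m := hdeg 0 1
  have hdb : b.natDegree ≤ 2 * m := hdeg 0 2
  have hdc : c.natDegree ≤ 2 * m := hdeg 1 2
  set R := (a * b * c).roots with hR
  have hdisj : Disjoint (R.toFinset.map Function.Embedding.some)
      (if Vanish e m none 0 1 ∨ Vanish e m none 0 2 ∨ Vanish e m none 1 2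
        then {none} else (∅ : Finset (Option k))) := by
    split_ifs <;> simp
  rw [conductorTwo, badSet, Finset.sum_union hdisj, Finset.sum_map]
  have hfin : ∑ t ∈ R.toFinset, placeCount e m (some t) ≤ (a * b * c).natDegree := by
    rw [(IsAlgClosed.splits (a * b * c)).natDegree_eq_card_roots, ← hR, ← Multiset.toFinset_sum_count_eq]
    refine Finset.sum_le_sum fun t ht => ?_
    have h1 : 1 ≤ R.count t := Multiset.one_le_count_iff_mem.2 (Multiset.mem_toFinset.1 ht)
    unfold placeCount
    split_ifs with hv
    · have hvc := vanish_trans (vanish_symm hv.1) hv.2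
      have key : ∀ {q : k[X]}, q ≠ 0 → q.eval t = 0 → 1 ≤ q.roots.count t := fun hq h =>
        Multiset.one_le_count_iff_mem.2 ((mem_roots hq).2 h)
      have e1 := key ha0 hv.1
      have e2 := key hb0 hv.2
      rw [hR, roots_mul hne, roots_mul hab, Multiset.count_add, Multiset.count_add]
      omega
    · exact h1
  have hinf : ∑ v ∈ (if Vanish e m none 0 1 ∨ Vanish e m none 0 2 ∨ Vanish e m none 1 2
      then {none} else (∅ : Finset (Option k))), placeCount e m v +
        (a * b * c).natDegree ≤ 6 * m := by
    rw [natDegree_mul hab hc0, natDegree_mul ha0 hb0]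
    split_ifs with h
    · rw [Finset.sum_singleton, placeCount]
      change a.natDegree < 2 * m ∨ b.natDegree < 2 * m ∨ c.natDegree < 2 * m at h
      split_ifs with h'
      · obtain ⟨h01, h02⟩ := h'
        have h12 : c.natDegree < 2 * m := vanish_trans (vanish_symm h01) h02
        change a.natDegree < 2 * m at h01
        change b.natDegree < 2 * m at h02
        omega
      · omega
    · rw [Finset.sum_empty]; omega
  simp only [Function.Embedding.some_apply]
  omega

end FA.FullTwoTorsionRank
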