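import Fermat.Agent.FullTwoTorsionRank.Count
import Fermat.Agent.TwoDescent.IsogenyBound

/-!
# The index of the doubles and the rank

Constants are squares, so a point is a double as soon as the three orders are even at every place
of the line; the patterns of parities at the bad places therefore bound the classes modulo two.
-/

set_option autoImplicit false
set_option linter.unusedSectionVars false
set_option linter.style.haveILetI false

noncomputable section

open WeierstrassCurve Polynomial
open FA.FunctionFieldMW FA.FunctionFieldRank FA.NeronSpecialisation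
open scoped Classical

namespace FA.FullTwoTorsionRank

variable {k : Type*} [Field k] {e : Fin 3 → k[X]} {m : ℕ}

/-- The elements representing the classes of a point. -/
def classRep (e : Fin 3 → k[X]) :
    (rootCurve (genRoots e)).toAffine.Point → Fin 3 → RatFunc k
  | .zero, _ => 1
  | .some x _ _, i => classElt (genRoots e) x i

theorem classRep_ne_zero (he : Function.Injective e)
    (P : (rootCurve (genRoots e)).toAffine.Point) (i : Fin 3) : classRep e P i ≠ 0 := by
  rcases P with _ | ⟨x, y, h⟩
  · exact one_ne_zero
  · exact classElt_ne_zero (genRoots_injective he) x i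

theorem parity_one (v : Option k) : parity v (1 : RatFunc k) = 0 := by
  have h := parity_mul (k := k) v one_ne_zero one_ne_zero
  rw [mul_one, CharTwo.add_self_eq_zero] at h
  exact h

theorem parity_classRep_allowed (he : Function.Injective e)
    (hdeg : ∀ i j, (e i - e j).natDegree ≤ 2 * m)
    (P : (rootCurve (genRoots e)).toAffine.Point) (v : Option k) :
    (fun i => parity v (classRep e P i)) ∈ allowed e m v := by
  rcases P with _ | ⟨x, y, h⟩
  · exact ⟨by simp [classRep, parity_one], fun _ _ => parity_one v⟩
  · exact ⟨sum_parity_classElt he v h.1,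
      fun l hl => (parity_eq_zero_iff v _).2 (even_weightAt_classElt he hdeg hl h.1)⟩

/-- The pattern of a point at the bad places. -/
def pattern (he : Function.Injective e) (hdeg : ∀ i j, (e i - e j).natDegree ≤ 2 * m)
    (P : (rootCurve (genRoots e)).toAffine.Point) : (v : badSet e m) → allowed e m v.1 :=
  fun v => ⟨_, parity_classRep_allowed he hdeg P v.1⟩

theorem parity_eq_zero_of_not_mem (he : Function.Injective e)
    (hdeg : ∀ i j, (e i - e j).natDegree ≤ 2 * m) (P : (rootCurve (genRoots e)).toAffine.Point)
    {v : Option k} (hv : v ∉ badSet e m) (i : Fin 3) : parity v (classRep e P i) = 0 :=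
  (parity_classRep_allowed he hdeg P v).2 i (separated_of_not_mem he hv i)

theorem exists_linPrime [IsAlgClosed k] (o : Option (MonicPrime k)) :
    ∃ v : Option k, v.map linPrime = o := by
  cases o with
  | none => exact ⟨none, rfl⟩
  | some P =>
    obtain ⟨t, ht⟩ := IsAlgClosed.exists_root P.1 (degree_pos_of_irreducible P.2.2).ne'
    exact ⟨some t, congrArg some (Subtype.ext
      (eq_of_monic_of_associated (monic_X_sub_C t) P.2.1
        ((irreducible_X_sub_C t).associated_of_dvd P.2.2 (dvd_iff_isRoot.2 ht))))⟩

/-- **The sum over the places vanishes**: a rational function has degree zero. -/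
theorem pattern_mem_ker [IsAlgClosed k] (he : Function.Injective e)
    (hdeg : ∀ i j, (e i - e j).natDegree ≤ 2 * m) (P : (rootCurve (genRoots e)).toAffine.Point) :
    pattern he hdeg P ∈ (patternSum e m).ker := by
  rw [AddMonoidHom.mem_ker]
  funext i
  show (∑ v : badSet e m, (pattern he hdeg P v : Fin 3 → ZMod 2)) i = 0
  rw [Finset.sum_apply]
  show ∑ v : badSet e m, parity v.1 (classRep e P i) = 0
  rw [Finset.sum_coe_sort (badSet e m) fun v => parity v (classRep e P i)]
  set z := classRep e P i with hz'
  have hz : z ≠ 0 := classRep_ne_zero he P i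
  have hinj : Function.Injective (Option.map (linPrime (k := k))) :=
    Option.map_injective linPrime_injective
  have hsum : ∑ o ∈ placeSupport z, ((placeWeight o z : ℤ) : ZMod 2) = 0 := by
    rw [← Int.cast_sum, sum_placeWeight hz, Int.cast_zero]
  set B := (badSet e m).map ⟨Option.map linPrime, hinj⟩ with hB
  rw [show ∑ v ∈ badSet e m, parity v z = ∑ o ∈ B, ((placeWeight o z : ℤ) : ZMod 2) by
    rw [hB, Finset.sum_map]; rfl]
  have h1 : ∑ o ∈ B, ((placeWeight o z : ℤ) : ZMod 2) =
      ∑ o ∈ B ∪ placeSupport z, ((placeWeight o z : ℤ) : ZMod 2) := by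
    refine Finset.sum_subset Finset.subset_union_left fun o _ ho => ?_
    obtain ⟨v, rfl⟩ := exists_linPrime o
    exact parity_eq_zero_of_not_mem he hdeg P
      (fun hv => ho (Finset.mem_map.2 ⟨v, hv, rfl⟩)) i
  have h2 : ∑ o ∈ placeSupport z, ((placeWeight o z : ℤ) : ZMod 2) =
      ∑ o ∈ B ∪ placeSupport z, ((placeWeight o z : ℤ) : ZMod 2) :=
    Finset.sum_subset Finset.subset_union_right fun o _ ho => by
      rw [placeWeight_eq_zero ho, Int.cast_zero]
  rw [h1, ← h2, hsum]

theorem classes_eq (he : Function.Injective e) (h2 : (2 : RatFunc k) ≠ 0)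
    (P : (rootCurve (genRoots e)).toAffine.Point) (i : Fin 3) :
    (rootData (genRoots_injective he)).classes h2 P i = sqFun (RatFunc k) (classRep e P i) := by
  rcases P with _ | ⟨x, y, h⟩
  · have h1 := isParity_sqFun (L := RatFunc k) (x := 1) (y := 1) one_ne_zero one_ne_zero
    rw [mul_one, sqClass_add_self] at h1
    exact (congrFun (map_zero _) i).trans h1.symm
  · exact classes_eq_sqFun (genRoots_injective he) h2 h i

/-- Points with the same pattern differ by a double. -/
theorem exists_half_of_pattern [IsAlgClosed k] (he : Function.Injective e)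
    (hdeg : ∀ i j, (e i - e j).natDegree ≤ 2 * m) (h2 : (2 : k) ≠ 0)
    {P Q : (rootCurve (genRoots e)).toAffine.Point}
    (h : pattern he hdeg P = pattern he hdeg Q) : ∃ R, 2 • R = -P + Q := by
  have h2' := two_ne_zero_ratFunc h2
  refine (rootData (genRoots_injective he)).exists_half_of_classes h2' ?_
  funext i
  rw [map_add, map_neg, Pi.add_apply, Pi.neg_apply, Pi.zero_apply, classes_eq he h2' P,
    classes_eq he h2' Q]
  refine (neg_add_eq_zero (a := sqFun (RatFunc k) (classRep e P i))
    (b := sqFun (RatFunc k) (classRep e Q i))).2 ?_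
  have hp := classRep_ne_zero he P i
  have hq := classRep_ne_zero he Q i
  have hev : ∀ v : Option k, Even (weightAt v (classRep e P i * classRep e Q i)) := fun v => by
    rw [← parity_eq_zero_iff, parity_mul v hp hq]
    by_cases hv : v ∈ badSet e m
    · have e1 : parity v (classRep e P i) = parity v (classRep e Q i) :=
        congrFun (congrArg Subtype.val (congrFun h ⟨v, hv⟩)) i
      rw [e1, CharTwo.add_self_eq_zero]
    · rw [parity_eq_zero_of_not_mem he hdeg P hv, parity_eq_zero_of_not_mem he hdeg Q hv, add_zero]
  obtain ⟨w, hw⟩ : IsSquare (classRep e P i * classRep e Q i) := by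
    refine isSquare_of_even (0 : k) (mul_ne_zero hp hq) (fun R => ?_) (IsAlgClosed.exists_eq_mul_self _)
    obtain ⟨v, hv⟩ := exists_linPrime (some R)
    cases v with
    | none => simp at hv
    | some t =>
      obtain rfl : linPrime t = R := Option.some.inj hv
      have ht := hev (some t)
      rw [weightAt_some] at ht
      exact even_neg.1 ht
  have hw0 : w ≠ 0 := fun e' => mul_ne_zero hp hq (by rw [hw, e', mul_zero])
  refine eq_of_add_eq_zero_sqClass ?_
  rw [← isParity_sqFun hp hq, hw, isParity_sqFun hw0 hw0, sqClass_add_self]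

/-- **The doubles have index at most `2 ^ (N - 2)`.** -/
theorem index_doubles_le [IsAlgClosed k] (he : Function.Injective e)
    (hdeg : ∀ i j, (e i - e j).natDegree ≤ 2 * m) (hm : 0 < m) (h2 : (2 : k) ≠ 0) :
    2 ≤ conductorTwo e m ∧
      (nsmulAddMonoidHom (α := (rootCurve (genRoots e)).toAffine.Point) 2).range.index ≠ 0 ∧
      (nsmulAddMonoidHom (α := (rootCurve (genRoots e)).toAffine.Point) 2).range.index ≤
        2 ^ (conductorTwo e m - 2) := by
  set G := (rootCurve (genRoots e)).toAffine.Point
  set D := (nsmulAddMonoidHom (α := G) 2).range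
  let F : G ⧸ D → (patternSum e m).ker :=
    fun q => ⟨pattern he hdeg q.out, pattern_mem_ker he hdeg _⟩
  have hF : Function.Injective F := fun q q' hqq => by
    rw [← Quotient.out_eq q, ← Quotient.out_eq q']
    exact QuotientAddGroup.eq.2 (exists_half_of_pattern he hdeg h2 (congrArg Subtype.val hqq))
  obtain ⟨hN, hker⟩ := card_ker_patternSum he hm (m := m)
  haveI : Finite (G ⧸ D) := Finite.of_injective F hF
  refine ⟨hN, Nat.card_pos.ne', ?_⟩
  refine (Nat.card_le_card_of_injective F hF).trans ?_
  rw [show conductorTwo e m = conductorTwo e m - 2 + 2 by omega, pow_add] at hker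
  exact Nat.le_of_mul_le_mul_right hker (by norm_num)

/-- Four points are killed by two. -/
theorem four_le_two_torsion {r : Fin 3 → RatFunc k} (hr : Function.Injective r)
    (h2 : (2 : RatFunc k) ≠ 0)
    [Finite (AddCommGroup.torsion (rootCurve r).toAffine.Point)] :
    4 ≤ Nat.card {s : AddCommGroup.torsion (rootCurve r).toAffine.Point // 2 • s = 0} := by
  haveI := (rootData hr).isElliptic h2
  have hns : ∀ i, (rootCurve r).toAffine.Nonsingular (r i) 0 := fun i =>
    Affine.equation_iff_nonsingular.mp ((rootData hr).equation.2 (by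
      show (0 : RatFunc k) ^ 2 = (r i - r 0) * (r i - r 1) * (r i - r 2)
      fin_cases i <;> simp))
  let g : Option (Fin 3) → (rootCurve r).toAffine.Point
    | none => 0
    | some i => .some _ _ (hns i)
  have hg : ∀ i, 2 • g i = 0 := fun i => by
    cases i with
    | none => exact nsmul_zero 2
    | some i =>
      rw [two_nsmul]
      exact Affine.Point.add_self_of_Y_eq (by rw [cubicCurve_negY, neg_zero])
  have hinj : Function.Injective g := fun i j hij => by
    cases i <;> cases j
    · rfl
    · exact absurd hij.symm (Affine.Point.some_ne_zero _)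
    · exact absurd hij (Affine.Point.some_ne_zero _)
    · simp only [g, Affine.Point.some.injEq, and_true] at hij
      rw [hr hij]
  have := Nat.card_le_card_of_injective (fun i => (⟨⟨g i, (AddCommGroup.mem_torsion _).2
    (isOfFinAddOrder_iff_nsmul_eq_zero.2 ⟨2, two_pos, hg i⟩)⟩, Subtype.ext (hg i)⟩ :
    {s : AddCommGroup.torsion (rootCurve r).toAffine.Point // 2 • s = 0}))
    fun i j h => hinj (congrArg (fun s => s.1.1) h)
  simpa using this

/-- **The rank of finitely generated points is at most `N - 4`.** -/
theorem rank_le [IsAlgClosed k] (he : Function.Injective e)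
    (hdeg : ∀ i j, (e i - e j).natDegree ≤ 2 * m) (hm : 0 < m) (h2 : (2 : k) ≠ 0)
    [AddGroup.FG (rootCurve (genRoots e)).toAffine.Point] :
    Module.finrank ℤ (rootCurve (genRoots e)).toAffine.Point + 4 ≤ conductorTwo e m := by
  set G := (rootCurve (genRoots e)).toAffine.Point
  haveI : Module.Finite ℤ G := Module.Finite.iff_addGroup_fg.mpr inferInstance
  haveI : AddGroup.FG (AddCommGroup.torsion G) := by
    obtain ⟨r, ⟨φ⟩⟩ := FA.MordellWeil.exists_equiv_torsion_prod G
    exact AddGroup.fg_of_surjective (f := (AddMonoidHom.fst _ _).comp φ.toAddMonoidHom)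
      (Prod.fst_surjective.comp φ.surjective)
  haveI : Finite (AddCommGroup.torsion G) := AddCommGroup.finite_of_fg_isAddTorsion _
    fun x => by
      obtain ⟨x, hx⟩ := x
      exact AddSubmonoid.isOfFinAddOrder_coe.1 ((AddCommGroup.mem_torsion _).1 hx)
  obtain ⟨hN, hi0, hi⟩ := index_doubles_le he hdeg hm h2
  have h := (Nat.mul_le_mul_right _
    (four_le_two_torsion (genRoots_injective he) (two_ne_zero_ratFunc h2))).trans
      ((FA.TwoDescent.card_two_mul_le_index (G := G) hi0).trans hi)
  rw [show (4 : ℕ) = 2 ^ 2 from rfl, ← pow_add] at h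
  have := (Nat.pow_le_pow_iff_right one_lt_two).1 h
  show Module.finrank ℤ G + 4 ≤ _
  omega

end FA.FullTwoTorsionRank
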