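import Fermat.Agent.FullTwoTorsionRank.Descent
import Fermat.Agent.LangNeron.FiniteGen

/-!
# The curves `y² = x (x - 1) (x - 1 + T ^ (2 j))`

Their conductor has degree `2 j + 2`; in characteristic `p` with `2 j = p ^ f + 1` Ulmer's points
fill all the classes modulo two that the bound allows.
-/

set_option autoImplicit false
set_option linter.unusedSectionVars false
set_option linter.style.haveILetI false

noncomputable section

open WeierstrassCurve Polynomial
open FA.FunctionFieldMW FA.FunctionFieldRank FA.NeronSpecialisation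
open scoped Classical

namespace FA.FullTwoTorsionRank

variable {k : Type*} [Field k]

/-- The roots `0, 1, 1 - T ^ d`. -/
def legendreRoots (k : Type*) [Field k] (d : ℕ) : Fin 3 → k[X] := ![0, 1, 1 - X ^ d]

theorem legendreRoots_injective {d : ℕ} (hd : 0 < d) : Function.Injective (legendreRoots k d) := by
  have h0 : (1 : k[X]) - X ^ d ≠ 0 := fun e => by
    have := congrArg (eval 0) e
    simp [hd.ne'] at this
  have h1 : (1 : k[X]) - X ^ d ≠ 1 := fun e => by
    have := congrArg natDegree (sub_eq_self.1 e)
    simp [hd.ne'] at this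
  intro a b h
  fin_cases a <;> fin_cases b <;>
    first
      | rfl
      | exact absurd h zero_ne_one
      | exact absurd h one_ne_zero
      | exact absurd h h0
      | exact absurd h h1
      | exact absurd h.symm h0
      | exact absurd h.symm h1

theorem legendreRoots_degree {j : ℕ} (a b : Fin 3) :
    (legendreRoots k (2 * j) a - legendreRoots k (2 * j) b).natDegree ≤ 2 * j := by
  fin_cases a <;> fin_cases b <;> simp [legendreRoots] <;> compute_degree

theorem rootCurve_legendreRoots (d : ℕ) :
    rootCurve (genRoots (legendreRoots k d)) =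
      ulmerCurve (algebraMap k[X] (RatFunc k) (X ^ d)) := by
  ext <;> simp [genRoots, legendreRoots]
  ring

/-- **The conductor has degree `d + 2`.** -/
theorem conductorTwo_legendreRoots [IsAlgClosed k] {j : ℕ} (hj : 0 < j)
    (hsep : ((2 * j : ℕ) : k) ≠ 0) :
    conductorTwo (legendreRoots k (2 * j)) j = 2 * j + 2 := by
  set d := 2 * j with hd
  set e := legendreRoots k d with he
  have hd0 : 0 < d := by omega
  have hdeg : ((X : k[X]) ^ d).natDegree = d := natDegree_X_pow d
  have hdeg1 : ((1 : k[X]) - X ^ d).natDegree = d := by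
    rw [← neg_sub, natDegree_neg, ← C_1, natDegree_X_pow_sub_C]
  have h01 : e 0 - e 1 = -1 := by simp [e, legendreRoots]
  have h02 : e 0 - e 2 = X ^ d - 1 := by simp [e, legendreRoots]
  have h12 : e 1 - e 2 = X ^ d := by simp [e, legendreRoots]
  have hinf : Vanish e j none 0 1 ∧ ¬Vanish e j none 0 2 := by
    refine ⟨?_, ?_⟩
    · show (e 0 - e 1).natDegree < 2 * j
      rw [h01, natDegree_neg, natDegree_one]; omega
    · show ¬(e 0 - e 2).natDegree < 2 * j
      rw [h02, ← neg_sub, natDegree_neg, hdeg1]; omega
  have hprod : (e 0 - e 1) * (e 0 - e 2) * (e 1 - e 2) = (1 - X ^ d) * X ^ d := by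
    rw [h01, h02, h12]; ring
  set R := ((1 - X ^ d) * X ^ d : k[X]).roots
  have hroots : R.toFinset = insert 0 (nthRootsFinset d (1 : k)) := by
    ext t
    have hne : ((1 - X ^ d) * X ^ d : k[X]) ≠ 0 :=
      hprod ▸ prod_diff_ne_zero (legendreRoots_injective hd0)
    rw [Multiset.mem_toFinset, mem_roots hne, Finset.mem_insert, mem_nthRootsFinset hd0, IsRoot,
      eval_mul, mul_eq_zero, eval_sub, eval_one, eval_pow, eval_X, sub_eq_zero,
      pow_eq_zero_iff hd0.ne', or_comm, eq_comm (a := (1 : k))]
  have hcard : (nthRootsFinset d (1 : k)).card = d := by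
    rw [nthRootsFinset_def, Multiset.toFinset_card_of_nodup]
    · rw [nthRoots, ← (IsAlgClosed.splits _).natDegree_eq_card_roots, natDegree_X_pow_sub_C]
    · exact nodup_roots (separable_X_pow_sub_C (1 : k) hsep one_ne_zero)
  have hcount : ∀ t : k, placeCount e j (some t) = 1 := fun t => by
    rw [placeCount, if_neg]
    rintro ⟨h, -⟩
    simp only [Vanish, h01] at h
    simp at h
  rw [conductorTwo, badSet, if_pos (Or.inl hinf.1), hprod, Finset.sum_union (by simp),
    Finset.sum_map, Finset.sum_singleton, placeCount, if_neg fun h => hinf.2 h.2]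
  simp only [Function.Embedding.some_apply, hcount, Finset.sum_const, smul_eq_mul, mul_one]
  change R.toFinset.card + 1 = d + 2
  rw [hroots, Finset.card_insert_of_notMem, hcard]
  simp [mem_nthRootsFinset hd0, hd0.ne']

section CharP

variable {p f : ℕ} [Fact p.Prime] [CharP k p] {ζ : k}

/-- In characteristic `p` the index attains the bound `2 ^ d`. -/
theorem le_index_doubles (hp2 : p ≠ 2) (hζ : IsPrimitiveRoot ζ (p ^ f + 1))
    (hi : (nsmulAddMonoidHom
      (α := (ulmerCurve (tParam p f : RatFunc k)).toAffine.Point) 2).range.index ≠ 0) :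
    2 ^ (p ^ f + 1) ≤ (nsmulAddMonoidHom
      (α := (ulmerCurve (tParam p f : RatFunc k)).toAffine.Point) 2).range.index := by
  set φ := rootClasses (p := p) (f := f) ζ
  have hsurj : Function.Surjective φ := by
    rw [← AddMonoidHom.range_eq_top, eq_top_iff, ← closure_single_eq_top, AddSubgroup.closure_le]
    rintro _ ⟨i, rfl⟩
    exact ⟨_, rootClasses_uPoint hp2 hζ i⟩
  have hle : (nsmulAddMonoidHom (α := (ulmerCurve (tParam p f : RatFunc k)).toAffine.Point) 2).range ≤
      φ.ker := by
    rintro _ ⟨Q, rfl⟩
    rw [AddMonoidHom.mem_ker, nsmulAddMonoidHom_apply, map_nsmul, two_nsmul]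
    exact funext fun _ => CharTwo.add_self_eq_zero _
  refine le_of_eq_of_le ?_ (Nat.le_of_dvd (Nat.pos_of_ne_zero hi) (AddSubgroup.index_dvd_of_le hle))
  rw [AddSubgroup.index_ker, AddMonoidHom.range_eq_top.2 hsurj, AddSubgroup.card_top, Nat.card_fun,
    Nat.card_zmod, Nat.card_zmod]

end CharP

end FA.FullTwoTorsionRank
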